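import Mathlib
import Fermat.Prelude.Def_FLTPrelim_Ramification
import Fermat.Prelude.Def_EllipticCurve_FrobeniusTrace
import Fermat.Agent.BR2.TameChar
import Fermat.Agent.SW.Place.Galois

/-!
# Program G (S56), block BRIDGE-DP: `D_P = ⟨Frob⟩ · I_P · Gal(Ω / F)`

`Ω / K` Galois, `P` a valuation subring of `Ω` over the prime `q`, `φ` a Frobenius element at `P`,
`F / K` a finite normal subextension. Then every `σ` in the decomposition group of `P` is
`φ ^ n * i * u` with `i` in the inertia group of `P` and `u` fixing `F` pointwise.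

* `exists_pow_eq_of_pow_fixed`: a ring endomorphism of a field of characteristic `q` acts on the
  finite subfield `{z | z ^ (q ^ N) = z}` as a power of the Frobenius;
* `exists_frob_pow_mul_inertia_mul_fixing_of_isGalois`: the general statement;
* `exists_frob_pow_mul_inertia_mul_fixing`: the literal contract over `ℚ`.
-/

set_option autoImplicit false
set_option linter.style.haveILetI false

namespace Fermat.Agent.TW.Bridge.FrobInertia

open Polynomial

section FiniteField

variable {k : Type*} [Field k] {q : ℕ} [Fact q.Prime] [Algebra (ZMod q) k]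

/-- The subfield of `k` fixed by the `q ^ N`-power map. -/
def fixPow (k : Type*) [Field k] (q : ℕ) [Fact q.Prime] [Algebra (ZMod q) k] (N : ℕ) :
    IntermediateField (ZMod q) k where
  carrier := {z | z ^ (q ^ N) = z}
  mul_mem' := by
    intro a b ha hb
    show (a * b) ^ (q ^ N) = a * b
    rw [mul_pow, ha, hb]
  one_mem' := one_pow _
  add_mem' := by
    intro a b ha hb
    show (a + b) ^ (q ^ N) = a + b
    have : CharP k q := charP_of_injective_algebraMap (algebraMap (ZMod q) k).injective q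
    rw [add_pow_char_pow, ha, hb]
  zero_mem' := zero_pow (pow_pos (Fact.out : q.Prime).pos N).ne'
  algebraMap_mem' := by
    intro c
    show (algebraMap (ZMod q) k c) ^ (q ^ N) = algebraMap (ZMod q) k c
    rw [← map_pow, ZMod.pow_card_pow]
  inv_mem' := by
    intro a ha
    show (a⁻¹) ^ (q ^ N) = a⁻¹
    rw [inv_pow, ha]

theorem mem_fixPow {N : ℕ} {z : k} : z ∈ fixPow k q N ↔ z ^ (q ^ N) = z := Iff.rfl

theorem finite_fixPow {N : ℕ} (hN : N ≠ 0) : Finite (fixPow k q N) := by
  have hne : (X ^ q ^ N - X : k[X]) ≠ 0 :=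
    FiniteField.X_pow_card_pow_sub_X_ne_zero k hN (Fact.out : q.Prime).one_lt
  have hfin := Polynomial.finite_setOfPred_isRoot hne
  refine Set.Finite.subset hfin ?_ |>.to_subtype
  intro z hz
  show IsRoot _ z
  rw [IsRoot, eval_sub, eval_pow, eval_X, sub_eq_zero]
  exact hz

/-- A ring endomorphism of a field of characteristic `q` acts on the finite subfield
`{z | z ^ (q ^ N) = z}` as a power of the Frobenius. -/
theorem exists_pow_eq_of_pow_fixed {N : ℕ} (hN : N ≠ 0) (τ : k →+* k) :
    ∃ n : ℕ, ∀ z : k, z ^ (q ^ N) = z → τ z = z ^ (q ^ n) := by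
  have := finite_fixPow (k := k) (q := q) hN
  -- `τ` is a `ZMod q`-algebra map
  have hcomm : ∀ c : ZMod q, τ (algebraMap (ZMod q) k c) = algebraMap (ZMod q) k c := by
    intro c
    obtain ⟨m, rfl⟩ := ZMod.natCast_zmod_surjective c
    rw [map_natCast, map_natCast]
  let τa : k →ₐ[ZMod q] k := { τ with commutes' := hcomm }
  have hmem : ∀ z : fixPow k q N, τa (z : k) ∈ fixPow k q N := by
    intro z
    show (τ z) ^ (q ^ N) = τ z
    rw [← map_pow, z.2]
  let τ' : fixPow k q N →ₐ[ZMod q] fixPow k q N :=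
    { toFun := fun z => ⟨τa z, hmem z⟩
      map_one' := Subtype.ext (map_one τa)
      map_mul' := fun a b => Subtype.ext (map_mul τa (a : k) (b : k))
      map_zero' := Subtype.ext (map_zero τa)
      map_add' := fun a b => Subtype.ext (map_add τa (a : k) (b : k))
      commutes' := fun c => Subtype.ext (τa.commutes c) }
  obtain ⟨n, hn⟩ := (FiniteField.bijective_frobeniusAlgHom_pow (ZMod q) (fixPow k q N)).2 τ'
  refine ⟨n, fun z hz => ?_⟩
  have h1 := DFunLike.congr_fun hn ⟨z, hz⟩
  simp only [AlgHom.coe_pow, FiniteField.coe_frobeniusAlgHom, pow_iterate, ZMod.card] at h1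
  have h2 := congrArg (fun w : fixPow k q N => (w : k)) h1
  exact h2.symm

end FiniteField


section Main

open IsLocalRing

open scoped Pointwise

variable {K Ω : Type*} [Field K] [Field Ω] [Algebra K Ω]
variable {P : ValuationSubring Ω}

/-- The residue field of a valuation subring over the prime `q` has characteristic `q`. -/
theorem charP_residueField {q : ℕ} (hq : q.Prime) (hP : P.LiesOverPrime q) :
    CharP (ResidueField P) q := by
  have h1 : (q : ResidueField P) = 0 := by
    have h2 : residue P (q : P) = 0 := by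
      rw [residue_eq_zero_iff, P.valuation_lt_one_iff]
      exact (P.mem_nonunits_iff).mp hP
    rwa [map_natCast] at h2
  exact (CharP.charP_iff_prime_eq_zero hq).mpr h1

/-- Powers of a Frobenius element act on the residue field as powers of the `q`-power map. -/
theorem frob_pow_smul {q : ℕ} {φ : Ω ≃ₐ[K] Ω} (hφ : P.IsFrobeniusAt φ q) (m : ℕ)
    (z : ResidueField P) :
    ((⟨φ, hφ.mem_decompositionSubgroup⟩ : P.decompositionSubgroup K) ^ m) • z = z ^ (q ^ m) := by
  induction m generalizing z with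
  | zero => simp
  | succ m ih =>
    rw [pow_succ, mul_smul, hφ.smul_residue_eq, ih, ← pow_mul, pow_succ, mul_comm]

/-- An automorphism over `F` in the decomposition group of `P` is in the decomposition group of
`P` as an automorphism over `K`. -/
theorem restrictScalars_mem_decomposition (F : IntermediateField K Ω) {u' : Ω ≃ₐ[F] Ω}
    (hu' : u' ∈ P.decompositionSubgroup F) :
    u'.restrictScalars K ∈ P.decompositionSubgroup K := by
  have h : u' • P = P := hu'
  show (u'.restrictScalars K) • P = P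
  ext x
  rw [ValuationSubring.mem_pointwise_smul_iff_inv_smul_mem]
  have h1 : x ∈ u' • P ↔ x ∈ P := by rw [h]
  rw [ValuationSubring.mem_pointwise_smul_iff_inv_smul_mem] at h1
  exact h1

/-- The valuation subring `P ∩ F` of an intermediate field is dominated by `P`. -/
theorem dominates_comap (F : IntermediateField K Ω) :
    letI : Algebra (P.comap (algebraMap F Ω)) Ω :=
      ((algebraMap F Ω).comp (P.comap (algebraMap F Ω)).subtype).toAlgebra
    Fermat.Agent.SW.Place.Dominates (P.comap (algebraMap F Ω)) P := by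
  letI : Algebra (P.comap (algebraMap F Ω)) Ω :=
    ((algebraMap F Ω).comp (P.comap (algebraMap F Ω)).subtype).toAlgebra
  refine ⟨fun r => r.2, fun r hr => ?_⟩
  have hr' : P.valuation (algebraMap F Ω (r : F)) = 1 := hr
  have hr0 : (r : F) ≠ 0 := by
    intro h0
    rw [h0, map_zero, map_zero] at hr'
    exact zero_ne_one hr'
  have hinv : (r : F)⁻¹ ∈ P.comap (algebraMap F Ω) := by
    rw [ValuationSubring.mem_comap, ← P.valuation_le_one_iff, map_inv₀, map_inv₀, hr', inv_one]
  rw [isUnit_iff_exists_inv]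
  refine ⟨⟨(r : F)⁻¹, hinv⟩, Subtype.ext ?_⟩
  show (r : F) * (r : F)⁻¹ = 1
  exact mul_inv_cancel₀ hr0

/-- **`D_P = ⟨Frob⟩ · I_P · Gal(Ω / F)`** for `F / K` finite normal. -/
theorem exists_frob_pow_mul_inertia_mul_fixing_of_isGalois [IsGalois K Ω] {q : ℕ} (hq : q.Prime)
    (hP : P.LiesOverPrime q) {φ : Ω ≃ₐ[K] Ω} (hφ : P.IsFrobeniusAt φ q)
    (F : IntermediateField K Ω) [FiniteDimensional K F] [Normal K F]
    {σ : Ω ≃ₐ[K] Ω} (hσ : σ ∈ P.decompositionSubgroup K) :
    ∃ (n : ℕ) (i u : Ω ≃ₐ[K] Ω), i ∈ P.inertiaSubgroupIn K ∧ u ∈ F.fixingSubgroup ∧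
      σ = φ ^ n * i * u := by
  haveI : Fact q.Prime := ⟨hq⟩
  haveI : CharP (ResidueField P) q := charP_residueField hq hP
  letI : Algebra (ZMod q) (ResidueField P) := ZMod.algebra _ q
  let Φ : P.decompositionSubgroup K := ⟨φ, hφ.mem_decompositionSubgroup⟩
  let Sg : P.decompositionSubgroup K := ⟨σ, hσ⟩
  -- a power of `φ` fixing `F`
  have hNpos : Nat.card (F ≃ₐ[K] F) ≠ 0 := Nat.card_pos.ne'
  have hfix : ∀ x : F, (φ ^ Nat.card (F ≃ₐ[K] F)) (x : Ω) = x := by
    intro x
    have h1 : AlgEquiv.restrictNormalHom F (φ ^ Nat.card (F ≃ₐ[K] F)) = 1 := by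
      rw [map_pow]
      exact pow_card_eq_one'
    have h2 := AlgEquiv.restrictNormal_commutes (φ ^ Nat.card (F ≃ₐ[K] F)) F x
    have h3 : (φ ^ Nat.card (F ≃ₐ[K] F)).restrictNormal F x = x := by
      show AlgEquiv.restrictNormalHom F (φ ^ Nat.card (F ≃ₐ[K] F)) x = x
      rw [h1]
      rfl
    rw [h3] at h2
    exact h2.symm
  -- residues of `P ∩ F` are fixed by the `q ^ N`-power map
  have hres : ∀ x : P, (x : Ω) ∈ F →
      (residue P x) ^ (q ^ Nat.card (F ≃ₐ[K] F)) = residue P x := by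
    intro x hx
    rw [← frob_pow_smul hφ, ← ResidueField.residue_smul]
    congr 1
    apply Subtype.ext
    exact hfix ⟨x, hx⟩
  -- `σ` acts on them as a power of the Frobenius
  obtain ⟨n, hn⟩ := exists_pow_eq_of_pow_fixed (k := ResidueField P) (q := q) hNpos
    (MulSemiringAction.toRingHom (P.decompositionSubgroup K) (ResidueField P) Sg)
  let Δ : P.decompositionSubgroup K := (Φ ^ n)⁻¹ * Sg
  have hΔ : ∀ x : P, (x : Ω) ∈ F → Δ • residue P x = residue P x := by
    intro x hx
    rw [mul_smul, inv_smul_eq_iff, frob_pow_smul hφ n]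
    exact hn _ (hres x hx)
  -- lift the action of `Δ` on the residue field to `Gal(Ω / F)`
  letI : Algebra (P.comap (algebraMap F Ω)) Ω :=
    ((algebraMap F Ω).comp (P.comap (algebraMap F Ω)).subtype).toAlgebra
  haveI : IsScalarTower (P.comap (algebraMap F Ω)) F Ω :=
    IsScalarTower.of_algebraMap_eq (fun _ => rfl)
  have hDom : Fermat.Agent.SW.Place.Dominates (P.comap (algebraMap F Ω)) P := dominates_comap F
  let τ : ResidueField P ≃+* ResidueField P :=
    MulSemiringAction.toRingEquiv (P.decompositionSubgroup K) (ResidueField P) Δ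
  have hτ : ∀ r : P.comap (algebraMap F Ω),
      τ (residue P ⟨algebraMap (P.comap (algebraMap F Ω)) Ω r, hDom.mem r⟩)
        = residue P ⟨algebraMap (P.comap (algebraMap F Ω)) Ω r, hDom.mem r⟩ := by
    intro r
    exact hΔ ⟨algebraMap (P.comap (algebraMap F Ω)) Ω r, hDom.mem r⟩ (r : F).2
  obtain ⟨u', hu'D, hu'⟩ :=
    Fermat.Agent.SW.Place.exists_mem_decomposition_residue_eq (F := F) hDom τ hτ
  have huD : u'.restrictScalars K ∈ P.decompositionSubgroup K :=
    restrictScalars_mem_decomposition F hu'D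
  let U : P.decompositionSubgroup K := ⟨u'.restrictScalars K, huD⟩
  refine ⟨n, ((Δ * U⁻¹ : P.decompositionSubgroup K) : Ω ≃ₐ[K] Ω), u'.restrictScalars K, ?_, ?_, ?_⟩
  · -- inertia
    rw [Fermat.Agent.BR2.TameChar.mem_inertia_iff]
    refine ⟨(Δ * U⁻¹).2, fun x hx => ?_⟩
    have hy : ((U⁻¹ : P.decompositionSubgroup K) : Ω ≃ₐ[K] Ω) x ∈ P :=
      ((U⁻¹ : P.decompositionSubgroup K) • (⟨x, hx⟩ : P)).2
    have h1 := hu' ⟨((U⁻¹ : P.decompositionSubgroup K) : Ω ≃ₐ[K] Ω) x, hy⟩
    have h2 : τ (residue P ⟨((U⁻¹ : P.decompositionSubgroup K) : Ω ≃ₐ[K] Ω) x, hy⟩)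
        = residue P ((Δ * U⁻¹) • (⟨x, hx⟩ : P)) := by
      show Δ • residue P _ = _
      rw [← ResidueField.residue_smul, mul_smul]
      rfl
    have h3 : u' (((U⁻¹ : P.decompositionSubgroup K) : Ω ≃ₐ[K] Ω) x) = x := by
      show u' (u'.symm x) = x
      exact u'.apply_symm_apply x
    rw [h2] at h1
    rw [← sub_eq_zero, ← map_sub, residue_eq_zero_iff, P.valuation_lt_one_iff] at h1
    have h4 : (((Δ * U⁻¹) • (⟨x, hx⟩ : P) - ⟨u' (((U⁻¹ : P.decompositionSubgroup K) :
        Ω ≃ₐ[K] Ω) x), Fermat.Agent.SW.Place.apply_mem_of_mem_decomposition hu'D hy⟩ : P) : Ω)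
        = ((Δ * U⁻¹ : P.decompositionSubgroup K) : Ω ≃ₐ[K] Ω) x - x := by
      show ((Δ * U⁻¹ : P.decompositionSubgroup K) : Ω ≃ₐ[K] Ω) x
          - u' (((U⁻¹ : P.decompositionSubgroup K) : Ω ≃ₐ[K] Ω) x) = _
      rw [h3]
    rw [h4] at h1
    exact h1
  · -- fixing `F`
    rw [IntermediateField.mem_fixingSubgroup_iff]
    intro x hx
    exact u'.commutes ⟨x, hx⟩
  · -- the product formula
    have h5 : Sg = Φ ^ n * (Δ * U⁻¹) * U := by
      show Sg = Φ ^ n * ((Φ ^ n)⁻¹ * Sg * U⁻¹) * U
      group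
    have h6 := congrArg (fun g : P.decompositionSubgroup K => (g : Ω ≃ₐ[K] Ω)) h5
    exact h6

end Main

section Rat

local instance isAlgebraicQbar_fi : Algebra.IsAlgebraic ℚ (AlgebraicClosure ℚ) :=
  AlgebraicClosure.isAlgebraic ℚ

/-- **BRIDGE-DP, literal contract**: every element of the decomposition group of a place `P` of
`ℚ̄` over `q` is `φ ^ n * i * u` with `φ` a given Frobenius at `P`, `i` in the inertia group and
`u` fixing a given finite normal `F / ℚ`. -/
theorem exists_frob_pow_mul_inertia_mul_fixing {P : ValuationSubring (AlgebraicClosure ℚ)} {q : ℕ}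
    (hq : q.Prime) (hP : P.LiesOverPrime q)
    {φ : AlgebraicClosure ℚ ≃ₐ[ℚ] AlgebraicClosure ℚ} (hφ : P.IsFrobeniusAt φ q)
    (F : IntermediateField ℚ (AlgebraicClosure ℚ)) [FiniteDimensional ℚ F] [Normal ℚ F]
    {σ : AlgebraicClosure ℚ ≃ₐ[ℚ] AlgebraicClosure ℚ} (hσ : σ ∈ P.decompositionSubgroup ℚ) :
    ∃ (n : ℕ) (i u : AlgebraicClosure ℚ ≃ₐ[ℚ] AlgebraicClosure ℚ),
      i ∈ P.inertiaSubgroupIn ℚ ∧ u ∈ F.fixingSubgroup ∧ σ = φ ^ n * i * u :=
  haveI := Fermat.Agent.S54.FrobExists.isGalois_rat_algebraicClosure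
  haveI : @Normal ℚ F _ _ (IntermediateField.algebra' F) := ‹Normal ℚ F›
  exists_frob_pow_mul_inertia_mul_fixing_of_isGalois hq hP hφ F hσ

end Rat

end Fermat.Agent.TW.Bridge.FrobInertia
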