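import Mathlib
import Fermat.Prelude.Def_GaloisRep_CompletionBridge
import Fermat.Agent.S55.KrasnerCofinal
import Fermat.Agent.S14.TransCore
import Fermat.Agent.TW.Loc.LocalSurj

/-!
# Program G (S56), block BRIDGE-DP: the inertia group of `padicPlace q` is the local inertia group

`ι = padicEmbedding q : ℚ̄ → ℚ̄_q`, `r = localGaloisToGlobal q`, `P = padicPlace q`.

* `exists_padicEmbedding_sub_lt`: `ι(ℚ̄)` is dense in `ℚ̄_q`;
* `localGaloisToGlobal_mem_inertia_iff`: `r τ ∈ I_P ↔ ∀ y, ‖y‖ ≤ 1 → ‖τ y - y‖ < 1`;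
* `localGaloisToGlobal_injective`.
-/

set_option autoImplicit false
set_option linter.unusedSectionVars false
set_option linter.style.haveILetI false

open Polynomial

open scoped NNReal Pointwise

namespace Fermat.Agent.TW.Bridge.LocalInertia

local notation "Qb" => AlgebraicClosure ℚ
local notation "GQ" => (AlgebraicClosure ℚ ≃ₐ[ℚ] AlgebraicClosure ℚ)

/-- The ultrametric inequality for a difference. -/
theorem norm_sub_le_max_norm {S : Type*} [SeminormedAddCommGroup S] [IsUltrametricDist S]
    (x y : S) : ‖x - y‖ ≤ max ‖x‖ ‖y‖ := by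
  rw [sub_eq_add_neg]
  exact (IsUltrametricDist.norm_add_le_max x (-y)).trans_eq (by rw [norm_neg])

variable (q : ℕ) [hq : Fact q.Prime]

local notation "Gq" => (PadicAlgCl q ≃ₐ[ℚ_[q]] PadicAlgCl q)

/-- **`ι(ℚ̄)` is dense in `ℚ̄_q`.** -/
theorem exists_padicEmbedding_sub_lt (y : PadicAlgCl q) {ε : ℝ} (hε : 0 < ε) :
    ∃ x : Qb, ‖y - padicEmbedding q x‖ < ε := by
  obtain ⟨b, hb⟩ := Fermat.Agent.S55.exists_mem_localField q y
  rw [Fermat.Agent.S55.localField_adjoin_simple] at hb
  set β := padicEmbedding q b with hβ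
  have hβalg : IsAlgebraic ℚ_[q] β := Algebra.IsAlgebraic.isAlgebraic β
  have hy : y ∈ (IntermediateField.adjoin ℚ_[q] {β}).toSubalgebra := hb
  rw [IntermediateField.adjoin_simple_toSubalgebra_of_isAlgebraic hβalg,
    Algebra.adjoin_singleton_eq_range_aeval] at hy
  obtain ⟨f, rfl⟩ := hy
  set n := f.natDegree with hn
  set M : ℝ := max 1 ‖β‖ with hMdef
  have hM : 1 ≤ M := le_max_left _ _
  have hMβ : ‖β‖ ≤ M := le_max_right _ _
  have hM0 : 0 < M := lt_of_lt_of_le one_pos hM
  set δ : ℝ := ε / (2 * M ^ n) with hδdef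
  have hδ : 0 < δ := by positivity
  choose c hc using fun i : ℕ => Padic.rat_dense q (f.coeff i) hδ
  let g : ℚ[X] := ∑ i ∈ Finset.range (n + 1), C (c i) * X ^ i
  refine ⟨aeval b g, ?_⟩
  have h1 : padicEmbedding q (aeval b g) =
      ∑ i ∈ Finset.range (n + 1), algebraMap ℚ_[q] (PadicAlgCl q) (c i : ℚ_[q]) * β ^ i := by
    rw [← aeval_algHom_apply]
    simp only [g, map_sum, map_mul, map_pow, aeval_C, aeval_X]
    refine Finset.sum_congr rfl fun i _ => ?_
    rw [eq_ratCast, map_ratCast]
  have h2 : aeval β f =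
      ∑ i ∈ Finset.range (n + 1), algebraMap ℚ_[q] (PadicAlgCl q) (f.coeff i) * β ^ i := by
    rw [aeval_eq_sum_range]
    refine Finset.sum_congr rfl fun i _ => ?_
    rw [Algebra.smul_def]
  show ‖aeval β f - _‖ < ε
  rw [h1, h2, ← Finset.sum_sub_distrib]
  have hbound : ∀ i ∈ Finset.range (n + 1),
      ‖algebraMap ℚ_[q] (PadicAlgCl q) (f.coeff i) * β ^ i -
        algebraMap ℚ_[q] (PadicAlgCl q) (c i : ℚ_[q]) * β ^ i‖ ≤ ε / 2 := by
    intro i hi
    have hi' : i ≤ n := Nat.lt_succ_iff.mp (Finset.mem_range.mp hi)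
    rw [← sub_mul, ← map_sub, norm_mul, norm_pow, norm_algebraMap', ]
    have h3 : ‖β‖ ^ i ≤ M ^ n :=
      le_trans (pow_le_pow_left₀ (norm_nonneg _) hMβ i) (pow_le_pow_right₀ hM hi')
    calc ‖f.coeff i - (c i : ℚ_[q])‖ * ‖β‖ ^ i ≤ δ * M ^ n :=
          mul_le_mul (hc i).le h3 (by positivity) hδ.le
      _ = ε / 2 := by
          rw [hδdef]
          field_simp
  have hle := IsUltrametricDist.norm_sum_le_of_forall_le_of_nonneg (by positivity : 0 ≤ ε / 2)
    hbound
  linarith

/-- A variant with a non-strict bound and integral approximant. -/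
theorem exists_padicEmbedding_sub_lt_one (y : PadicAlgCl q) :
    ∃ x : Qb, ‖y - padicEmbedding q x‖ < 1 :=
  exists_padicEmbedding_sub_lt q y one_pos

variable {q}

/-- **Inertia is inertia**: `r τ` lies in the inertia group of `padicPlace q` iff `τ` acts
trivially on the residue field of `ℚ̄_q`. -/
theorem localGaloisToGlobal_mem_inertia_iff (τ : Gq) :
    localGaloisToGlobal q τ ∈ (padicPlace q).inertiaSubgroupIn ℚ ↔
      ∀ y : PadicAlgCl q, ‖y‖ ≤ 1 → ‖τ y - y‖ < 1 := by
  rw [Fermat.Agent.S14.mem_inertiaSubgroupIn_iff]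
  have hval : ∀ x : Qb, (padicPlace q).valuation x < 1 ↔ ‖padicEmbedding q x‖ < 1 := by
    intro x
    rw [← Fermat.Agent.S55.padicAbs_apply, Fermat.Agent.S55.padicAbs_lt_one_iff,
      Fermat.Agent.S14.valuation_lt_one_iff_inv]
  constructor
  · rintro ⟨-, h⟩ y hy
    obtain ⟨x, hx⟩ := exists_padicEmbedding_sub_lt_one q y
    have hxP : x ∈ padicPlace q := by
      rw [mem_padicPlace_iff, ← NNReal.coe_le_coe, coe_nnnorm, NNReal.coe_one]
      have : padicEmbedding q x = y - (y - padicEmbedding q x) := by ring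
      rw [this]
      exact le_trans (norm_sub_le_max_norm _ _) (max_le hy hx.le)
    have h1 := (hval _).mp (h x hxP)
    rw [map_sub, padicEmbedding_localGaloisToGlobal] at h1
    have h2 : ‖τ (y - padicEmbedding q x)‖ < 1 := by
      have := nnnorm_padicAlgCl_algEquiv q τ (y - padicEmbedding q x)
      rw [← coe_nnnorm, this, coe_nnnorm]
      exact hx
    have e : τ y - y = τ (y - padicEmbedding q x)
        + (τ (padicEmbedding q x) - padicEmbedding q x) - (y - padicEmbedding q x) := by
      rw [map_sub]; ring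
    rw [e]
    refine lt_of_le_of_lt (norm_sub_le_max_norm _ _) (max_lt ?_ hx)
    exact lt_of_le_of_lt (IsUltrametricDist.norm_add_le_max _ _) (max_lt h2 h1)
  · intro h
    refine ⟨localGaloisToGlobal_mem_decompositionSubgroup q τ, fun x hx => ?_⟩
    rw [hval, map_sub, padicEmbedding_localGaloisToGlobal]
    apply h
    rw [mem_padicPlace_iff, ← NNReal.coe_le_coe, coe_nnnorm, NNReal.coe_one] at hx
    exact hx

/-- `r τ ∈ I_P` iff `τ` lies in the inertia group of the valuation ring of `ℚ̄_q`. -/
theorem localGaloisToGlobal_mem_inertia_iff' (τ : Gq) :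
    localGaloisToGlobal q τ ∈ (padicPlace q).inertiaSubgroupIn ℚ ↔
      τ ∈ (padicIntegers q).inertiaSubgroupIn ℚ_[q] := by
  rw [localGaloisToGlobal_mem_inertia_iff, Fermat.Agent.S14.mem_inertiaSubgroupIn_iff]
  have hval : ∀ z : PadicAlgCl q, (padicIntegers q).valuation z < 1 ↔ ‖z‖ < 1 := by
    intro z
    rw [Fermat.Agent.S14.valuation_lt_one_iff_inv]
    rcases eq_or_ne z 0 with rfl | hz
    · simp
    · simp only [hz, false_or]
      rw [mem_padicIntegers_iff, ← NNReal.coe_le_coe, coe_nnnorm, NNReal.coe_one, norm_inv,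
        not_le, one_lt_inv₀ (norm_pos_iff.mpr hz)]
  have hD : τ ∈ (padicIntegers q).decompositionSubgroup ℚ_[q] := by
    show τ • padicIntegers q = padicIntegers q
    ext x
    rw [ValuationSubring.mem_pointwise_smul_iff_inv_smul_mem, mem_padicIntegers_iff,
      mem_padicIntegers_iff]
    show ‖τ⁻¹ x‖₊ ≤ 1 ↔ _
    rw [nnnorm_padicAlgCl_algEquiv]
  constructor
  · intro h
    refine ⟨hD, fun x hx => ?_⟩
    rw [hval]
    apply h
    rw [mem_padicIntegers_iff, ← NNReal.coe_le_coe, coe_nnnorm, NNReal.coe_one] at hx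
    exact hx
  · rintro ⟨-, h⟩ y hy
    rw [← hval]
    apply h
    rw [mem_padicIntegers_iff, ← NNReal.coe_le_coe, coe_nnnorm, NNReal.coe_one]
    exact hy

variable (q)

/-- **`localGaloisToGlobal q` is injective** (`ι(ℚ̄)` is dense and `τ` is an isometry). -/
theorem localGaloisToGlobal_injective : Function.Injective (localGaloisToGlobal q) := by
  rw [injective_iff_map_eq_one]
  intro τ hτ
  ext y
  show τ y = y
  rw [← sub_eq_zero, ← norm_eq_zero]
  apply le_antisymm _ (norm_nonneg _)
  apply le_of_forall_pos_lt_add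
  intro ε hε
  rw [zero_add]
  obtain ⟨x, hx⟩ := exists_padicEmbedding_sub_lt q y hε
  have h1 : τ (padicEmbedding q x) = padicEmbedding q x := by
    rw [← padicEmbedding_localGaloisToGlobal, hτ]
    rfl
  have h2 : ‖τ (y - padicEmbedding q x)‖ < ε := by
    have := nnnorm_padicAlgCl_algEquiv q τ (y - padicEmbedding q x)
    rw [← coe_nnnorm, this, coe_nnnorm]
    exact hx
  have e : τ y - y = τ (y - padicEmbedding q x) - (y - padicEmbedding q x) := by
    rw [map_sub, h1]; ring
  rw [e]
  exact lt_of_le_of_lt (norm_sub_le_max_norm _ _) (max_lt h2 hx)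

/-- The image of the local inertia group is the inertia group of `padicPlace q`. -/
theorem map_inertiaSubgroupIn :
    ((padicIntegers q).inertiaSubgroupIn ℚ_[q]).map (localGaloisToGlobal q) =
      (padicPlace q).inertiaSubgroupIn ℚ := by
  ext σ
  rw [Subgroup.mem_map]
  constructor
  · rintro ⟨τ, hτ, rfl⟩
    exact (localGaloisToGlobal_mem_inertia_iff' τ).mpr hτ
  · intro hσ
    have hD : σ ∈ (padicPlace q).decompositionSubgroup ℚ :=
      ((Fermat.Agent.S14.mem_inertiaSubgroupIn_iff _ _).mp hσ).1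
    obtain ⟨τ, rfl⟩ := Fermat.Agent.TW.Loc.exists_localGaloisToGlobal_eq q hD
    exact ⟨τ, (localGaloisToGlobal_mem_inertia_iff' τ).mp hσ, rfl⟩

/-- The preimage of the inertia group of `padicPlace q` is the local inertia group. -/
theorem comap_inertiaSubgroupIn :
    ((padicPlace q).inertiaSubgroupIn ℚ).comap (localGaloisToGlobal q) =
      (padicIntegers q).inertiaSubgroupIn ℚ_[q] := by
  ext τ
  rw [Subgroup.mem_comap]
  exact localGaloisToGlobal_mem_inertia_iff' τ

/-! ### The residue fields -/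

section Residue

open IsLocalRing

/-- Every automorphism of `ℚ̄_q / ℚ_q` lies in the decomposition group of the valuation ring. -/
theorem mem_decompositionSubgroup_padicIntegers (τ : Gq) :
    τ ∈ (padicIntegers q).decompositionSubgroup ℚ_[q] := by
  show τ • padicIntegers q = padicIntegers q
  ext x
  rw [ValuationSubring.mem_pointwise_smul_iff_inv_smul_mem, mem_padicIntegers_iff,
    mem_padicIntegers_iff]
  show ‖τ⁻¹ x‖₊ ≤ 1 ↔ _
  rw [nnnorm_padicAlgCl_algEquiv]

/-- The embedding of `padicPlace q` into the valuation ring of `ℚ̄_q`. -/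
noncomputable def placeToIntegers : padicPlace q →+* padicIntegers q :=
  ((padicEmbedding q).toRingHom.comp (padicPlace q).subtype).codRestrict
    (padicIntegers q).toSubring (fun x => x.2)

@[simp]
theorem coe_placeToIntegers (x : padicPlace q) :
    ((placeToIntegers q x : padicIntegers q) : PadicAlgCl q) = padicEmbedding q (x : Qb) := rfl

instance isLocalHom_placeToIntegers : IsLocalHom (placeToIntegers q) := by
  refine ⟨fun x hx => ?_⟩
  obtain ⟨u, hu⟩ := hx
  have h1 : padicEmbedding q (x : Qb) * ((u⁻¹ : (padicIntegers q)ˣ) : padicIntegers q) = 1 := by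
    have := congrArg (fun z : padicIntegers q => (z : PadicAlgCl q)) (u.mul_inv)
    rw [hu] at this
    exact this
  have hx0 : (x : Qb) ≠ 0 := by
    intro h0
    rw [h0, map_zero, zero_mul] at h1
    exact zero_ne_one h1
  have hinv : (x : Qb)⁻¹ ∈ padicPlace q := by
    show padicEmbedding q (x : Qb)⁻¹ ∈ padicIntegers q
    rw [map_inv₀, ← eq_inv_of_mul_eq_one_right h1]
    exact Subtype.mem _
  rw [isUnit_iff_exists_inv]
  exact ⟨⟨(x : Qb)⁻¹, hinv⟩, Subtype.ext (mul_inv_cancel₀ hx0)⟩

/-- Elements of the valuation ring of `ℚ̄_q` are congruent to elements of `padicPlace q`. -/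
theorem exists_placeToIntegers_residue_eq (y : padicIntegers q) :
    ∃ x : padicPlace q, residue (padicIntegers q) (placeToIntegers q x) =
      residue (padicIntegers q) y := by
  obtain ⟨x, hx⟩ := exists_padicEmbedding_sub_lt_one q (y : PadicAlgCl q)
  have hy : ‖(y : PadicAlgCl q)‖ ≤ 1 := by
    have := y.2
    rw [mem_padicIntegers_iff, ← NNReal.coe_le_coe, coe_nnnorm, NNReal.coe_one] at this
    exact this
  have hxP : x ∈ padicPlace q := by
    rw [mem_padicPlace_iff, ← NNReal.coe_le_coe, coe_nnnorm, NNReal.coe_one]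
    have : padicEmbedding q x = (y : PadicAlgCl q) - ((y : PadicAlgCl q) - padicEmbedding q x) := by
      ring
    rw [this]
    exact le_trans (norm_sub_le_max_norm _ _) (max_le hy hx.le)
  refine ⟨⟨x, hxP⟩, ?_⟩
  rw [← sub_eq_zero, ← map_sub, residue_eq_zero_iff, ← neg_mem_iff,
    (padicIntegers q).valuation_lt_one_iff, Fermat.Agent.S14.valuation_lt_one_iff_inv]
  rcases eq_or_ne ((-(placeToIntegers q ⟨x, hxP⟩ - y) : padicIntegers q) : PadicAlgCl q) 0
    with h0 | h0
  · exact Or.inl h0
  · right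
    rw [mem_padicIntegers_iff, ← NNReal.coe_le_coe, coe_nnnorm, NNReal.coe_one, norm_inv,
      not_le, one_lt_inv₀ (norm_pos_iff.mpr h0)]
    have : ((-(placeToIntegers q ⟨x, hxP⟩ - y) : padicIntegers q) : PadicAlgCl q)
        = (y : PadicAlgCl q) - padicEmbedding q x := by
      show -(padicEmbedding q x - (y : PadicAlgCl q)) = _
      ring
    rw [this]
    exact hx

/-- **The residue field of `padicPlace q` is the residue field of `ℚ̄_q`.** -/
noncomputable def resEquiv :
    ResidueField (padicPlace q) ≃+* ResidueField (padicIntegers q) :=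
  RingEquiv.ofBijective (ResidueField.map (placeToIntegers q))
    ⟨(ResidueField.map (placeToIntegers q)).injective, fun z => by
      obtain ⟨y, rfl⟩ := residue_surjective z
      obtain ⟨x, hx⟩ := exists_placeToIntegers_residue_eq q y
      exact ⟨residue _ x, by rw [ResidueField.map_residue]; exact hx⟩⟩

@[simp]
theorem resEquiv_residue (x : padicPlace q) :
    resEquiv q (residue _ x) = residue _ (placeToIntegers q x) :=
  ResidueField.map_residue _ x

/-- The residue field isomorphism is equivariant for `localGaloisToGlobal q`. -/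
theorem resEquiv_smul (τ : Gq) (z : ResidueField (padicPlace q)) :
    resEquiv q ((⟨localGaloisToGlobal q τ, localGaloisToGlobal_mem_decompositionSubgroup q τ⟩ :
        (padicPlace q).decompositionSubgroup ℚ) • z) =
      (⟨τ, mem_decompositionSubgroup_padicIntegers q τ⟩ :
        (padicIntegers q).decompositionSubgroup ℚ_[q]) • resEquiv q z := by
  obtain ⟨x, rfl⟩ := residue_surjective z
  rw [← ResidueField.residue_smul, resEquiv_residue, resEquiv_residue,
    ← ResidueField.residue_smul]
  congr 1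
  apply Subtype.ext
  exact padicEmbedding_localGaloisToGlobal q τ (x : Qb)

/-- **Frobenius is Frobenius.** -/
theorem isFrobeniusAt_localGaloisToGlobal_iff (τ : Gq) :
    (padicPlace q).IsFrobeniusAt (localGaloisToGlobal q τ) q ↔
      (padicIntegers q).IsFrobeniusAt τ q := by
  constructor
  · rintro ⟨h, hF⟩
    refine ⟨mem_decompositionSubgroup_padicIntegers q τ, fun w => ?_⟩
    obtain ⟨z, rfl⟩ := (resEquiv q).surjective w
    rw [← resEquiv_smul, hF z, map_pow]
  · rintro ⟨h, hF⟩
    refine ⟨localGaloisToGlobal_mem_decompositionSubgroup q τ, fun z => ?_⟩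
    apply (resEquiv q).injective
    rw [resEquiv_smul, map_pow]
    exact hF _

end Residue

end Fermat.Agent.TW.Bridge.LocalInertia
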