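import Mathlib
import Fermat.Agent.TW.Bridge.FrobInertia
import Fermat.Agent.TW.Bridge.LocalInertia

/-!
# Program G (S56), block BRIDGE-DP: the inertia group surjects onto finite-level inertia groups

`Ω / K` Galois, `P` a valuation subring of `Ω`, `F` an intermediate field.

* `exists_inertia_mul_fixing`: an element `δ` of the decomposition group of `P` acting trivially on
  the residue field of `P ∩ F` is `i * u` with `i` in the inertia group of `P` and
  `u ∈ Gal(Ω / F)` in the decomposition group of `P`;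
* `exists_inertia_mul_fixing_rat`: the case `Ω = ℚ̄`, `K = ℚ`;
* `exists_mem_inertia_restrictNormalHom_eq`: for `K / ℚ_q` normal inside `ℚ̄_q`, every
  `s ∈ Gal(K / ℚ_q)` acting trivially on the residue field of `K` is the restriction of an element
  of the inertia group of `ℚ̄_q / ℚ_q`.
-/

set_option autoImplicit false
set_option linter.unusedSectionVars false
set_option linter.style.haveILetI false

open scoped NNReal Pointwise

namespace Fermat.Agent.TW.Bridge.InertiaLift

open IsLocalRing Fermat.Agent.TW.Bridge.FrobInertia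

section General

variable {K Ω : Type*} [Field K] [Field Ω] [Algebra K Ω]
variable {P : ValuationSubring Ω}

/-- **Inertia surjects onto finite-level inertia**, general form. -/
theorem exists_inertia_mul_fixing [IsGalois K Ω] (F : IntermediateField K Ω)
    {δ : Ω ≃ₐ[K] Ω} (hδ : δ ∈ P.decompositionSubgroup K)
    (h : ∀ x ∈ P, x ∈ F → P.valuation (δ x - x) < 1) :
    ∃ i u : Ω ≃ₐ[K] Ω, i ∈ P.inertiaSubgroupIn K ∧ u ∈ F.fixingSubgroup ∧
      u ∈ P.decompositionSubgroup K ∧ δ = i * u := by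
  let Δ : P.decompositionSubgroup K := ⟨δ, hδ⟩
  have hΔ : ∀ x : P, (x : Ω) ∈ F → Δ • residue P x = residue P x := by
    intro x hx
    rw [← ResidueField.residue_smul, ← sub_eq_zero, ← map_sub, residue_eq_zero_iff,
      P.valuation_lt_one_iff]
    exact h x x.2 hx
  letI : Algebra (P.comap (algebraMap F Ω)) Ω :=
    ((algebraMap F Ω).comp (P.comap (algebraMap F Ω)).subtype).toAlgebra
  haveI : IsScalarTower (P.comap (algebraMap F Ω)) F Ω :=
    IsScalarTower.of_algebraMap_eq (fun _ => rfl)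
  have hDom : Fermat.Agent.SW.Place.Dominates (P.comap (algebraMap F Ω)) P := dominates_comap F
  let τ : ResidueField P ≃+* ResidueField P :=
    MulSemiringAction.toRingEquiv (P.decompositionSubgroup K) (ResidueField P) Δ
  have hτ : ∀ r : P.comap (algebraMap F Ω),
      τ (residue P ⟨algebraMap (P.comap (algebraMap F Ω)) Ω r, hDom.mem r⟩)
        = residue P ⟨algebraMap (P.comap (algebraMap F Ω)) Ω r, hDom.mem r⟩ := by
    intro r
    exact hΔ ⟨algebraMap (P.comap (algebraMap F Ω)) Ω r, hDom.mem r⟩ (r : F).2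
  obtain ⟨u', hu'D, hu'⟩ :=
    Fermat.Agent.SW.Place.exists_mem_decomposition_residue_eq (F := F) hDom τ hτ
  have huD : u'.restrictScalars K ∈ P.decompositionSubgroup K :=
    restrictScalars_mem_decomposition F hu'D
  let U : P.decompositionSubgroup K := ⟨u'.restrictScalars K, huD⟩
  refine ⟨((Δ * U⁻¹ : P.decompositionSubgroup K) : Ω ≃ₐ[K] Ω), u'.restrictScalars K,
    ?_, ?_, huD, ?_⟩
  · rw [Fermat.Agent.BR2.TameChar.mem_inertia_iff]
    refine ⟨(Δ * U⁻¹).2, fun x hx => ?_⟩
    have hy : ((U⁻¹ : P.decompositionSubgroup K) : Ω ≃ₐ[K] Ω) x ∈ P :=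
      ((U⁻¹ : P.decompositionSubgroup K) • (⟨x, hx⟩ : P)).2
    have h1 := hu' ⟨((U⁻¹ : P.decompositionSubgroup K) : Ω ≃ₐ[K] Ω) x, hy⟩
    have h2 : τ (residue P ⟨((U⁻¹ : P.decompositionSubgroup K) : Ω ≃ₐ[K] Ω) x, hy⟩)
        = residue P ((Δ * U⁻¹) • (⟨x, hx⟩ : P)) := by
      show Δ • residue P _ = _
      rw [← ResidueField.residue_smul, mul_smul]
      rfl
    have h3 : u' (((U⁻¹ : P.decompositionSubgroup K) : Ω ≃ₐ[K] Ω) x) = x := by
      show u' (u'.symm x) = x
      exact u'.apply_symm_apply x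
    rw [h2] at h1
    rw [← sub_eq_zero, ← map_sub, residue_eq_zero_iff, P.valuation_lt_one_iff] at h1
    have h4 : (((Δ * U⁻¹) • (⟨x, hx⟩ : P) - ⟨u' (((U⁻¹ : P.decompositionSubgroup K) :
        Ω ≃ₐ[K] Ω) x), Fermat.Agent.SW.Place.apply_mem_of_mem_decomposition hu'D hy⟩ : P) : Ω)
        = ((Δ * U⁻¹ : P.decompositionSubgroup K) : Ω ≃ₐ[K] Ω) x - x := by
      show ((Δ * U⁻¹ : P.decompositionSubgroup K) : Ω ≃ₐ[K] Ω) x
          - u' (((U⁻¹ : P.decompositionSubgroup K) : Ω ≃ₐ[K] Ω) x) = _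
      rw [h3]
    rw [h4] at h1
    exact h1
  · rw [IntermediateField.mem_fixingSubgroup_iff]
    intro x hx
    exact u'.commutes ⟨x, hx⟩
  · have h5 : Δ = (Δ * U⁻¹) * U := by group
    exact congrArg (fun g : P.decompositionSubgroup K => (g : Ω ≃ₐ[K] Ω)) h5

end General

section Rat

local notation "Qb" => AlgebraicClosure ℚ
local notation "GQ" => (AlgebraicClosure ℚ ≃ₐ[ℚ] AlgebraicClosure ℚ)

/-- **`I_P` surjects onto the inertia group of every level `F`** (`Ω = ℚ̄`, `K = ℚ`). -/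
theorem exists_inertia_mul_fixing_rat {P : ValuationSubring Qb} (F : IntermediateField ℚ Qb)
    {σ : GQ} (hσ : σ ∈ P.decompositionSubgroup ℚ)
    (h : ∀ x ∈ P, x ∈ F → P.valuation (σ x - x) < 1) :
    ∃ i u : GQ, i ∈ P.inertiaSubgroupIn ℚ ∧ u ∈ F.fixingSubgroup ∧
      u ∈ P.decompositionSubgroup ℚ ∧ σ = i * u :=
  haveI := Fermat.Agent.S54.FrobExists.isGalois_rat_algebraicClosure
  exists_inertia_mul_fixing F hσ h

end Rat

section Local

variable (q : ℕ) [hq : Fact q.Prime]

local notation "Gq" => (PadicAlgCl q ≃ₐ[ℚ_[q]] PadicAlgCl q)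

open Fermat.Agent.TW.Bridge.LocalInertia

/-- `ℚ̄_q / ℚ_q` is Galois. -/
theorem isGalois_padicAlgCl : IsGalois ℚ_[q] (PadicAlgCl q) :=
  haveI : IsAlgClosure ℚ_[q] (PadicAlgCl q) := AlgebraicClosure.instIsAlgClosure ℚ_[q]
  inferInstance

/-- **The local inertia group surjects onto the inertia group of every finite level.** -/
theorem exists_mem_inertia_restrictNormalHom_eq (K : IntermediateField ℚ_[q] (PadicAlgCl q))
    [Normal ℚ_[q] K] (s : K ≃ₐ[ℚ_[q]] K)
    (hs : ∀ y : K, ‖(y : PadicAlgCl q)‖ ≤ 1 →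
      ‖((s y : K) : PadicAlgCl q) - (y : PadicAlgCl q)‖ < 1) :
    ∃ τ : Gq, τ ∈ (padicIntegers q).inertiaSubgroupIn ℚ_[q] ∧
      AlgEquiv.restrictNormalHom K τ = s := by
  haveI := isGalois_padicAlgCl q
  obtain ⟨τ₀, hτ₀⟩ := AlgEquiv.restrictNormalHom_surjective (F := ℚ_[q]) (K₁ := K)
    (PadicAlgCl q) s
  have hval : ∀ z : PadicAlgCl q, (padicIntegers q).valuation z < 1 ↔ ‖z‖ < 1 := by
    intro z
    rw [Fermat.Agent.S14.valuation_lt_one_iff_inv]
    rcases eq_or_ne z 0 with rfl | hz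
    · simp
    · simp only [hz, false_or]
      rw [mem_padicIntegers_iff, ← NNReal.coe_le_coe, coe_nnnorm, NNReal.coe_one, norm_inv,
        not_le, one_lt_inv₀ (norm_pos_iff.mpr hz)]
  have h : ∀ x ∈ padicIntegers q, x ∈ K → (padicIntegers q).valuation (τ₀ x - x) < 1 := by
    intro x hx hxK
    rw [hval]
    have h1 : τ₀ x = ((s ⟨x, hxK⟩ : K) : PadicAlgCl q) := by
      rw [← hτ₀]
      exact (AlgEquiv.restrictNormal_commutes τ₀ K ⟨x, hxK⟩).symm
    rw [h1]
    apply hs ⟨x, hxK⟩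
    rw [mem_padicIntegers_iff, ← NNReal.coe_le_coe, coe_nnnorm, NNReal.coe_one] at hx
    exact hx
  obtain ⟨i, u, hi, hu, -, hiu⟩ :=
    exists_inertia_mul_fixing K (mem_decompositionSubgroup_padicIntegers q τ₀) h
  refine ⟨i, hi, ?_⟩
  have h2 : AlgEquiv.restrictNormalHom K u = 1 := by
    ext x
    have := AlgEquiv.restrictNormal_commutes u K x
    rw [IntermediateField.mem_fixingSubgroup_iff] at hu
    show ((u.restrictNormal K x : K) : PadicAlgCl q) = (x : PadicAlgCl q)
    rw [show ((u.restrictNormal K x : K) : PadicAlgCl q) = u (x : PadicAlgCl q) from this]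
    exact hu x x.2
  rw [← hτ₀, hiu, map_mul, h2, mul_one]

end Local

end Fermat.Agent.TW.Bridge.InertiaLift
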