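import Mathlib
import Fermat.Prelude.Def_GaloisRep_Residual
import Fermat.Agent.BR2.TameChar
import Fermat.Agent.TW.Bridge.LocalInertia

/-!
# Program G (S56), block BRIDGE-DP: local transfer of the shape of `ρbar|G_p` (F4)

`P = padicPlace p`, `r = localGaloisToGlobal p`, `ι = padicEmbedding p`. The global statement
`IsLevelTwoAt ρbar p P π₀ ζ₀` of `TW/Shape` (helper28, finding #1569), given here by its literal
body, transports to the local Galois group `Gp = Gal(ℚ̄_p / ℚ_p)` in norm language, for every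
`π ζ : PadicAlgCl p` with `π ^ (p² - 1) = -p`, `ζ` a primitive `(p² - 1)`-th root of unity.

* `IsNormInertia`, `IsNormFrobenius`: inertia and Frobenius elements of `Gp` in norm language;
* `IsLocalLevelTwo ρbar p π ζ`: the local form of `IsLevelTwoAt`;
* `isLocalLevelTwo_of_global`: the transfer; `exists_global_pi_zeta`: every local `(π, ζ)` comes
  from a global one; `local_shape_of_global`: the dichotomy (stable line) ∨ (level two), locally;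
* `exists_local_tau`, `exists_local_phi`: transfer of the operators `τ`, `φ`.
-/

set_option autoImplicit false
set_option linter.unusedSectionVars false
set_option linter.style.haveILetI false

open Polynomial

open scoped NNReal Pointwise

namespace Fermat.Agent.TW.Bridge.ShapeLocal

open Fermat.Agent.TW.Bridge.LocalInertia

local notation "Qb" => AlgebraicClosure ℚ
local notation "GQ" => (AlgebraicClosure ℚ ≃ₐ[ℚ] AlgebraicClosure ℚ)

variable (p : ℕ) [hp : Fact p.Prime]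

local notation "Gp" => (PadicAlgCl p ≃ₐ[ℚ_[p]] PadicAlgCl p)

/-- Inertia in norm language. -/
def IsNormInertia (s : Gp) : Prop := ∀ y : PadicAlgCl p, ‖y‖ ≤ 1 → ‖s y - y‖ < 1

/-- Frobenius elements in norm language. -/
def IsNormFrobenius (φ : Gp) : Prop := ∀ y : PadicAlgCl p, ‖y‖ ≤ 1 → ‖φ y - y ^ p‖ < 1

variable {p}

theorem isNormInertia_iff (s : Gp) :
    IsNormInertia p s ↔ localGaloisToGlobal p s ∈ (padicPlace p).inertiaSubgroupIn ℚ :=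
  (localGaloisToGlobal_mem_inertia_iff s).symm

theorem valuation_padicIntegers_lt_one_iff (z : PadicAlgCl p) :
    (padicIntegers p).valuation z < 1 ↔ ‖z‖ < 1 := by
  rw [Fermat.Agent.S14.valuation_lt_one_iff_inv]
  rcases eq_or_ne z 0 with rfl | hz
  · simp
  · simp only [hz, false_or]
    rw [mem_padicIntegers_iff, ← NNReal.coe_le_coe, coe_nnnorm, NNReal.coe_one, norm_inv,
      not_le, one_lt_inv₀ (norm_pos_iff.mpr hz)]

theorem mem_padicIntegers_iff_norm (z : PadicAlgCl p) : z ∈ padicIntegers p ↔ ‖z‖ ≤ 1 := by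
  rw [mem_padicIntegers_iff, ← NNReal.coe_le_coe, coe_nnnorm, NNReal.coe_one]

theorem isNormFrobenius_iff' (φ : Gp) :
    IsNormFrobenius p φ ↔ (padicIntegers p).IsFrobeniusAt φ p := by
  rw [Fermat.Agent.BR2.TameChar.isFrobeniusAt_iff]
  constructor
  · intro h
    refine ⟨mem_decompositionSubgroup_padicIntegers p φ, fun y hy => ?_⟩
    rw [valuation_padicIntegers_lt_one_iff]
    exact h y ((mem_padicIntegers_iff_norm y).mp hy)
  · rintro ⟨-, h⟩ y hy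
    rw [← valuation_padicIntegers_lt_one_iff]
    exact h y ((mem_padicIntegers_iff_norm y).mpr hy)

theorem isNormFrobenius_iff (φ : Gp) :
    IsNormFrobenius p φ ↔ (padicPlace p).IsFrobeniusAt (localGaloisToGlobal p φ) p := by
  rw [isNormFrobenius_iff', isFrobeniusAt_localGaloisToGlobal_iff]

/-- The local form of `TW.Shape.IsLevelTwoAt`. -/
def IsLocalLevelTwo {k : Type} [Field k] (ρbar : ResidualGaloisRep k) (p : ℕ) [Fact p.Prime]
    (π ζ : PadicAlgCl p) : Prop :=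
  ∃ (b : Module.Basis (Fin 2) k ρbar.V) (ξ : k),
    ξ ^ p ≠ ξ ∧ ξ ^ (p ^ 2) = ξ ∧ ξ ^ ((p ^ 2 - 1) / 2) = -1 ∧
    (∀ s : PadicAlgCl p ≃ₐ[ℚ_[p]] PadicAlgCl p, IsNormInertia p s → ∀ n : ℕ,
      s π = ζ ^ n * π →
        ρbar.ρ (localGaloisToGlobal p s) (b 0) = ξ ^ n • b 0 ∧
          ρbar.ρ (localGaloisToGlobal p s) (b 1) = ξ ^ (n * p) • b 1) ∧
    (∀ φ : PadicAlgCl p ≃ₐ[ℚ_[p]] PadicAlgCl p, IsNormFrobenius p φ →
      (∃ c : k, ρbar.ρ (localGaloisToGlobal p φ) (b 0) = c • b 1) ∧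
        (∃ c : k, ρbar.ρ (localGaloisToGlobal p φ) (b 1) = c • b 0)) ∧
    (∀ σ : PadicAlgCl p ≃ₐ[ℚ_[p]] PadicAlgCl p,
      ((∃ c : k, ρbar.ρ (localGaloisToGlobal p σ) (b 0) = c • b 0) ∧
        (∃ c : k, ρbar.ρ (localGaloisToGlobal p σ) (b 1) = c • b 1)) ∨
      ((∃ c : k, ρbar.ρ (localGaloisToGlobal p σ) (b 0) = c • b 1) ∧
        (∃ c : k, ρbar.ρ (localGaloisToGlobal p σ) (b 1) = c • b 0))) ∧
    (∀ σ : PadicAlgCl p ≃ₐ[ℚ_[p]] PadicAlgCl p, σ π = π → σ ζ = ζ →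
      ∃ c : k, ρbar.ρ (localGaloisToGlobal p σ) = c • (1 : Module.End k ρbar.V))

theorem padicEmbedding_injective : Function.Injective (padicEmbedding p) :=
  (padicEmbedding p).toRingHom.injective

/-- `r σ x = y` iff `σ (ι x) = ι y`. -/
theorem localGaloisToGlobal_apply_eq_iff (σ : Gp) (x y : Qb) :
    localGaloisToGlobal p σ x = y ↔ σ (padicEmbedding p x) = padicEmbedding p y := by
  rw [← padicEmbedding_localGaloisToGlobal]
  exact ⟨fun h => by rw [h], fun h => padicEmbedding_injective h⟩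

/-- **Local transfer of `IsLevelTwoAt`** (hypothesis = the literal body of
`TW.Shape.IsLevelTwoAt ρbar p (padicPlace p) π₀ ζ₀`). -/
theorem isLocalLevelTwo_of_global {k : Type} [Field k] (ρbar : ResidualGaloisRep k) (π₀ ζ₀ : Qb)
    (h : ∃ (b : Module.Basis (Fin 2) k ρbar.V) (ξ : k),
      ξ ^ p ≠ ξ ∧ ξ ^ (p ^ 2) = ξ ∧ ξ ^ ((p ^ 2 - 1) / 2) = -1 ∧
      (∀ s ∈ (padicPlace p).inertiaSubgroupIn ℚ, ∀ n : ℕ, s π₀ = ζ₀ ^ n * π₀ →
        ρbar.ρ s (b 0) = ξ ^ n • b 0 ∧ ρbar.ρ s (b 1) = ξ ^ (n * p) • b 1) ∧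
      (∀ φ : GQ, (padicPlace p).IsFrobeniusAt φ p →
        (∃ c : k, ρbar.ρ φ (b 0) = c • b 1) ∧ (∃ c : k, ρbar.ρ φ (b 1) = c • b 0)) ∧
      (∀ σ ∈ (padicPlace p).decompositionSubgroup ℚ,
        ((∃ c : k, ρbar.ρ σ (b 0) = c • b 0) ∧ (∃ c : k, ρbar.ρ σ (b 1) = c • b 1)) ∨
        ((∃ c : k, ρbar.ρ σ (b 0) = c • b 1) ∧ (∃ c : k, ρbar.ρ σ (b 1) = c • b 0))) ∧
      (∀ σ ∈ (padicPlace p).decompositionSubgroup ℚ, σ π₀ = π₀ → σ ζ₀ = ζ₀ →
        ∃ c : k, ρbar.ρ σ = c • (1 : Module.End k ρbar.V))) :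
    IsLocalLevelTwo ρbar p (padicEmbedding p π₀) (padicEmbedding p ζ₀) := by
  obtain ⟨b, ξ, h1, h2, h3, hI, hF, hD, hH⟩ := h
  refine ⟨b, ξ, h1, h2, h3, ?_, ?_, ?_, ?_⟩
  · intro s hs n hsn
    refine hI _ ((isNormInertia_iff s).mp hs) n ?_
    rw [localGaloisToGlobal_apply_eq_iff, hsn, map_mul, map_pow]
  · intro φ hφ
    exact hF _ ((isNormFrobenius_iff φ).mp hφ)
  · intro σ
    exact hD _ (localGaloisToGlobal_mem_decompositionSubgroup p σ)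
  · intro σ hπ hζ
    refine hH _ (localGaloisToGlobal_mem_decompositionSubgroup p σ) ?_ ?_
    · rw [localGaloisToGlobal_apply_eq_iff, hπ]
    · rw [localGaloisToGlobal_apply_eq_iff, hζ]

/-- Every local pair `(π, ζ)` comes from a global one. -/
theorem exists_global_pi_zeta {π ζ : PadicAlgCl p} (hπ : π ^ (p ^ 2 - 1) = -(p : PadicAlgCl p))
    (hζ : IsPrimitiveRoot ζ (p ^ 2 - 1)) :
    ∃ π₀ ζ₀ : Qb, π₀ ^ (p ^ 2 - 1) = -(p : Qb) ∧ IsPrimitiveRoot ζ₀ (p ^ 2 - 1) ∧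
      padicEmbedding p π₀ = π ∧ padicEmbedding p ζ₀ = ζ := by
  have hn : 0 < p ^ 2 - 1 := by
    have := hp.out.two_le
    have : 2 ^ 2 ≤ p ^ 2 := Nat.pow_le_pow_left this 2
    omega
  have h1 : (X ^ (p ^ 2 - 1) + C (p : ℚ) : ℚ[X]) ≠ 0 := by
    intro h
    have := congrArg natDegree h
    rw [natDegree_X_pow_add_C, natDegree_zero] at this
    omega
  have h2 : (X ^ (p ^ 2 - 1) - C (1 : ℚ) : ℚ[X]) ≠ 0 := by
    intro h
    have := congrArg natDegree h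
    rw [natDegree_X_pow_sub_C, natDegree_zero] at this
    omega
  obtain ⟨π₀, hπ₀⟩ := Fermat.Agent.S55.exists_padicEmbedding_eq_of_aeval_eq_zero p h1
    (β := π) (by simp [hπ])
  obtain ⟨ζ₀, hζ₀⟩ := Fermat.Agent.S55.exists_padicEmbedding_eq_of_aeval_eq_zero p h2
    (β := ζ) (by simp [hζ.pow_eq_one])
  refine ⟨π₀, ζ₀, ?_, ?_, hπ₀, hζ₀⟩
  · apply padicEmbedding_injective (p := p)
    rw [map_pow, hπ₀, hπ, map_neg, map_natCast]
  · rw [← hζ₀] at hζ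
    exact hζ.of_map_of_injective padicEmbedding_injective

/-- **The local dichotomy**: (stable line) ∨ (level two), from the global one at `padicPlace p`
(hypothesis = the literal conclusion of `TW.Shape.shape_at_p` at `P = padicPlace p`). -/
theorem local_shape_of_global {k : Type} [Field k] (ρbar : ResidualGaloisRep k)
    (hglobal : ∀ π₀ ζ₀ : Qb, π₀ ^ (p ^ 2 - 1) = -(p : Qb) → IsPrimitiveRoot ζ₀ (p ^ 2 - 1) →
      (∃ ℓ : Submodule k ρbar.V, Module.finrank k ℓ = 1 ∧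
        ∀ σ ∈ (padicPlace p).decompositionSubgroup ℚ, ∀ v ∈ ℓ, ρbar.ρ σ v ∈ ℓ) ∨
      ∃ (b : Module.Basis (Fin 2) k ρbar.V) (ξ : k),
        ξ ^ p ≠ ξ ∧ ξ ^ (p ^ 2) = ξ ∧ ξ ^ ((p ^ 2 - 1) / 2) = -1 ∧
        (∀ s ∈ (padicPlace p).inertiaSubgroupIn ℚ, ∀ n : ℕ, s π₀ = ζ₀ ^ n * π₀ →
          ρbar.ρ s (b 0) = ξ ^ n • b 0 ∧ ρbar.ρ s (b 1) = ξ ^ (n * p) • b 1) ∧
        (∀ φ : GQ, (padicPlace p).IsFrobeniusAt φ p →
          (∃ c : k, ρbar.ρ φ (b 0) = c • b 1) ∧ (∃ c : k, ρbar.ρ φ (b 1) = c • b 0)) ∧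
        (∀ σ ∈ (padicPlace p).decompositionSubgroup ℚ,
          ((∃ c : k, ρbar.ρ σ (b 0) = c • b 0) ∧ (∃ c : k, ρbar.ρ σ (b 1) = c • b 1)) ∨
          ((∃ c : k, ρbar.ρ σ (b 0) = c • b 1) ∧ (∃ c : k, ρbar.ρ σ (b 1) = c • b 0))) ∧
        (∀ σ ∈ (padicPlace p).decompositionSubgroup ℚ, σ π₀ = π₀ → σ ζ₀ = ζ₀ →
          ∃ c : k, ρbar.ρ σ = c • (1 : Module.End k ρbar.V)))
    {π ζ : PadicAlgCl p} (hπ : π ^ (p ^ 2 - 1) = -(p : PadicAlgCl p))
    (hζ : IsPrimitiveRoot ζ (p ^ 2 - 1)) :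
    (∃ ℓ : Submodule k ρbar.V, Module.finrank k ℓ = 1 ∧
      ∀ σ : Gp, ∀ v ∈ ℓ, ρbar.ρ (localGaloisToGlobal p σ) v ∈ ℓ) ∨
    IsLocalLevelTwo ρbar p π ζ := by
  obtain ⟨π₀, ζ₀, hπ₀, hζ₀, rfl, rfl⟩ := exists_global_pi_zeta hπ hζ
  rcases hglobal π₀ ζ₀ hπ₀ hζ₀ with ⟨ℓ, hℓ, hstab⟩ | h
  · exact Or.inl ⟨ℓ, hℓ, fun σ v hv =>
      hstab _ (localGaloisToGlobal_mem_decompositionSubgroup p σ) v hv⟩
  · exact Or.inr (isLocalLevelTwo_of_global ρbar π₀ ζ₀ h)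

/-- Transfer of the tame generator `τ`. -/
theorem exists_local_tau {π₀ ζ₀ : Qb}
    (h : ∃ τ ∈ (padicPlace p).inertiaSubgroupIn ℚ, τ π₀ = ζ₀ * π₀ ∧ τ ζ₀ = ζ₀) :
    ∃ τ : Gp, IsNormInertia p τ ∧
      τ (padicEmbedding p π₀) = padicEmbedding p ζ₀ * padicEmbedding p π₀ ∧
      τ (padicEmbedding p ζ₀) = padicEmbedding p ζ₀ := by
  obtain ⟨τ, hτI, hτπ, hτζ⟩ := h
  have hD : τ ∈ (padicPlace p).decompositionSubgroup ℚ :=
    ((Fermat.Agent.S14.mem_inertiaSubgroupIn_iff _ _).mp hτI).1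
  obtain ⟨t, rfl⟩ := Fermat.Agent.TW.Loc.exists_localGaloisToGlobal_eq p hD
  refine ⟨t, (isNormInertia_iff t).mpr hτI, ?_, ?_⟩
  · rw [← map_mul, ← localGaloisToGlobal_apply_eq_iff]
    exact hτπ
  · rw [← localGaloisToGlobal_apply_eq_iff]
    exact hτζ

/-- Transfer of the Frobenius lift `φ`. -/
theorem exists_local_phi {π₀ ζ₀ : Qb}
    (h : ∃ φ : GQ, (padicPlace p).IsFrobeniusAt φ p ∧ φ π₀ = π₀ ∧ φ ζ₀ = ζ₀ ^ p) :
    ∃ φ : Gp, IsNormFrobenius p φ ∧ φ (padicEmbedding p π₀) = padicEmbedding p π₀ ∧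
      φ (padicEmbedding p ζ₀) = padicEmbedding p ζ₀ ^ p := by
  obtain ⟨φ, hφF, hφπ, hφζ⟩ := h
  obtain ⟨f, rfl⟩ := Fermat.Agent.TW.Loc.exists_localGaloisToGlobal_eq p
    hφF.mem_decompositionSubgroup
  refine ⟨f, (isNormFrobenius_iff f).mpr hφF, ?_, ?_⟩
  · rw [← localGaloisToGlobal_apply_eq_iff]
    exact hφπ
  · rw [← map_pow, ← localGaloisToGlobal_apply_eq_iff]
    exact hφζ

end Fermat.Agent.TW.Bridge.ShapeLocal
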