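import Mathlib
import Fermat.Agent.TW.Shape.Ext
import Fermat.Agent.TW.Bridge.ShapeLocal

/-!
# Program G (S56), block BRIDGE-DP: the shape of `ρbar|G_p` in the local Galois group (F4, local)

Hypothesis-free local form of `TW.Shape.shape_at_p` and `TW.Shape.levelTwo_ext` (helper28):
for `π ζ : PadicAlgCl p`, `π ^ (p² - 1) = -p`, `ζ` a primitive `(p² - 1)`-th root of unity, either
`ρbar ∘ localGaloisToGlobal p` has a stable line or `IsLocalLevelTwoExt ρbar p π ζ` holds: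
the clauses of `ShapeLocal.IsLocalLevelTwo` and, for the same basis `b` and `ξ`,

* every `σ : Gp` with `σ ζ = ζ`, `σ π = ζ ^ n * π` acts by `c • diag(ξ ^ n, ξ ^ (n p))`;
* every `σ : Gp` with `σ ζ = ζ ^ p` swaps the two lines.
-/

set_option autoImplicit false
set_option linter.unusedSectionVars false
set_option linter.style.haveILetI false

open Polynomial

open scoped NNReal Pointwise

namespace Fermat.Agent.TW.Bridge.ShapeLocalMain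

open Fermat.Agent.TW.Bridge.LocalInertia Fermat.Agent.TW.Bridge.ShapeLocal Fermat.Agent.TW.Shape

local notation "Qb" => AlgebraicClosure ℚ
local notation "GQ" => (AlgebraicClosure ℚ ≃ₐ[ℚ] AlgebraicClosure ℚ)

/-- The local form of `IsLevelTwoAt`, with the two extension clauses of `levelTwo_ext`. -/
def IsLocalLevelTwoExt {k : Type} [Field k] (ρbar : ResidualGaloisRep k) (p : ℕ) [Fact p.Prime]
    (π ζ : PadicAlgCl p) : Prop :=
  ∃ (b : Module.Basis (Fin 2) k ρbar.V) (ξ : k),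
    ξ ^ p ≠ ξ ∧ ξ ^ (p ^ 2) = ξ ∧ ξ ^ ((p ^ 2 - 1) / 2) = -1 ∧
    (∀ s : PadicAlgCl p ≃ₐ[ℚ_[p]] PadicAlgCl p, IsNormInertia p s → ∀ n : ℕ,
      s π = ζ ^ n * π →
        ρbar.ρ (localGaloisToGlobal p s) (b 0) = ξ ^ n • b 0 ∧
          ρbar.ρ (localGaloisToGlobal p s) (b 1) = ξ ^ (n * p) • b 1) ∧
    (∀ φ : PadicAlgCl p ≃ₐ[ℚ_[p]] PadicAlgCl p, IsNormFrobenius p φ →
      (∃ c : k, ρbar.ρ (localGaloisToGlobal p φ) (b 0) = c • b 1) ∧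
        (∃ c : k, ρbar.ρ (localGaloisToGlobal p φ) (b 1) = c • b 0)) ∧
    (∀ σ : PadicAlgCl p ≃ₐ[ℚ_[p]] PadicAlgCl p,
      ((∃ c : k, ρbar.ρ (localGaloisToGlobal p σ) (b 0) = c • b 0) ∧
        (∃ c : k, ρbar.ρ (localGaloisToGlobal p σ) (b 1) = c • b 1)) ∨
      ((∃ c : k, ρbar.ρ (localGaloisToGlobal p σ) (b 0) = c • b 1) ∧
        (∃ c : k, ρbar.ρ (localGaloisToGlobal p σ) (b 1) = c • b 0))) ∧
    (∀ σ : PadicAlgCl p ≃ₐ[ℚ_[p]] PadicAlgCl p, σ π = π → σ ζ = ζ →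
      ∃ c : k, ρbar.ρ (localGaloisToGlobal p σ) = c • (1 : Module.End k ρbar.V)) ∧
    (∀ σ : PadicAlgCl p ≃ₐ[ℚ_[p]] PadicAlgCl p, σ ζ = ζ → ∀ n : ℕ, σ π = ζ ^ n * π →
      ∃ c : k, ρbar.ρ (localGaloisToGlobal p σ) (b 0) = (c * ξ ^ n) • b 0 ∧
        ρbar.ρ (localGaloisToGlobal p σ) (b 1) = (c * ξ ^ (n * p)) • b 1) ∧
    (∀ σ : PadicAlgCl p ≃ₐ[ℚ_[p]] PadicAlgCl p, σ ζ = ζ ^ p →
      (∃ c : k, ρbar.ρ (localGaloisToGlobal p σ) (b 0) = c • b 1) ∧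
        (∃ c : k, ρbar.ρ (localGaloisToGlobal p σ) (b 1) = c • b 0))

variable {k : Type} [Field k] {p : ℕ} [hp : Fact p.Prime]

local notation "Gp" => (PadicAlgCl p ≃ₐ[ℚ_[p]] PadicAlgCl p)

theorem IsLocalLevelTwoExt.isLocalLevelTwo {ρbar : ResidualGaloisRep k} {π ζ : PadicAlgCl p}
    (h : IsLocalLevelTwoExt ρbar p π ζ) : IsLocalLevelTwo ρbar p π ζ := by
  obtain ⟨b, ξ, h1, h2, h3, h4, h5, h6, h7, -, -⟩ := h
  exact ⟨b, ξ, h1, h2, h3, h4, h5, h6, h7⟩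

/-- Transfer of `IsLevelTwoAt` at `padicPlace p`, including the clauses of `levelTwo_ext`. -/
theorem isLocalLevelTwoExt_of_isLevelTwoAt (ρbar : ResidualGaloisRep k) {π₀ ζ₀ : Qb}
    (hπ₀ : π₀ ^ (p ^ 2 - 1) = -(p : Qb)) (hζ₀ : IsPrimitiveRoot ζ₀ (p ^ 2 - 1))
    (h : IsLevelTwoAt ρbar p (padicPlace p) π₀ ζ₀) :
    IsLocalLevelTwoExt ρbar p (padicEmbedding p π₀) (padicEmbedding p ζ₀) := by
  obtain ⟨b, ξ, h1, h2, h3, hI, hF, hD, hH⟩ := h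
  obtain ⟨hE1, hE2⟩ := levelTwo_ext hp.out (padicPlace p)
    (Fermat.Agent.S55.padicPlace_liesOverPrime p) ρbar hπ₀ hζ₀ hI hF hH
  obtain ⟨-, -, -, -, -, g4, g5, g6, g7⟩ :=
    isLocalLevelTwo_of_global ρbar π₀ ζ₀ ⟨b, ξ, h1, h2, h3, hI, hF, hD, hH⟩
  refine ⟨b, ξ, h1, h2, h3, ?_, ?_, ?_, ?_, ?_, ?_⟩
  · intro s hs n hsn
    refine hI _ ((isNormInertia_iff s).mp hs) n ?_
    rw [localGaloisToGlobal_apply_eq_iff, hsn, map_mul, map_pow]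
  · intro φ hφ
    exact hF _ ((isNormFrobenius_iff φ).mp hφ)
  · intro σ
    exact hD _ (localGaloisToGlobal_mem_decompositionSubgroup p σ)
  · intro σ hπ hζ
    refine hH _ (localGaloisToGlobal_mem_decompositionSubgroup p σ) ?_ ?_
    · rw [localGaloisToGlobal_apply_eq_iff, hπ]
    · rw [localGaloisToGlobal_apply_eq_iff, hζ]
  · intro σ hζ n hσn
    refine hE1 _ (localGaloisToGlobal_mem_decompositionSubgroup p σ) ?_ n ?_
    · rw [localGaloisToGlobal_apply_eq_iff, hζ]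
    · rw [localGaloisToGlobal_apply_eq_iff, hσn, map_mul, map_pow]
  · intro σ hζ
    refine hE2 _ (localGaloisToGlobal_mem_decompositionSubgroup p σ) ?_
    rw [localGaloisToGlobal_apply_eq_iff, hζ, map_pow]

/-- **The shape of `ρbar|G_p` in the local Galois group** (F4, local form, hypothesis-free). -/
theorem local_shape_at_p [Finite k] [CharP k p] (hp2 : p ≠ 2) (ρbar : ResidualGaloisRep k)
    (hdet : (GaloisRepAdic.ofResidualGaloisRep ρbar).DetIsCyclotomic p)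
    (hsplit : ∀ σ : GQ, ∃ α β : k, LinearMap.charpoly (ρbar.ρ σ) = (X - C α) * (X - C β))
    {π ζ : PadicAlgCl p} (hπ : π ^ (p ^ 2 - 1) = -(p : PadicAlgCl p))
    (hζ : IsPrimitiveRoot ζ (p ^ 2 - 1)) :
    (∃ ℓ : Submodule k ρbar.V, Module.finrank k ℓ = 1 ∧
      ∀ σ : Gp, ∀ v ∈ ℓ, ρbar.ρ (localGaloisToGlobal p σ) v ∈ ℓ) ∨
    IsLocalLevelTwoExt ρbar p π ζ := by
  obtain ⟨π₀, ζ₀, hπ₀, hζ₀, rfl, rfl⟩ := exists_global_pi_zeta hπ hζ
  rcases shape_at_p hp2 ρbar hdet hsplit (padicPlace p)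
    (Fermat.Agent.S55.padicPlace_liesOverPrime p) π₀ ζ₀ hπ₀ hζ₀ with ⟨ℓ, hℓ, hstab⟩ | h
  · exact Or.inl ⟨ℓ, hℓ, fun σ v hv =>
      hstab _ (localGaloisToGlobal_mem_decompositionSubgroup p σ) v hv⟩
  · exact Or.inr (isLocalLevelTwoExt_of_isLevelTwoAt ρbar hπ₀ hζ₀ h)

end Fermat.Agent.TW.Bridge.ShapeLocalMain
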