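import Mathlib
import Fermat.Agent.S55.LCBridgeLocal
import Fermat.Agent.Cheb.FrobDict
import Fermat.Agent.TW.Bridge.FrobInertia
import Fermat.Agent.TW.Bridge.LocalInertia

/-!
# Program G (S56), block BRIDGE-DP: unramified homomorphisms of `G_{ℚ_q}` are determined by
their value at a Frobenius lift

`Gq = Gal(ℚ̄_q / ℚ_q)`, `r = localGaloisToGlobal q`, `P = padicPlace q`. A level-constant additive
map `u : Gq → M` vanishing on `r⁻¹(I_P)` satisfies `u σ ∈ ℕ • u φ` for every Frobenius lift `φ`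
(`exists_nsmul_eq`). Hence every `k`-space of such maps has dimension at most one
(`finrank_le_one_of_forall`).
-/

set_option autoImplicit false
set_option linter.unusedSectionVars false
set_option linter.style.haveILetI false

open scoped NNReal Pointwise

namespace Fermat.Agent.TW.Bridge.UnrHom

open Fermat.Agent.S55 Fermat.Agent.CFT

local notation "Qb" => AlgebraicClosure ℚ
local notation "GQ" => (AlgebraicClosure ℚ ≃ₐ[ℚ] AlgebraicClosure ℚ)

variable (q : ℕ) [hq : Fact q.Prime]

local notation "Gq" => (PadicAlgCl q ≃ₐ[ℚ_[q]] PadicAlgCl q)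

/-- There is a Frobenius lift in the local Galois group. -/
theorem exists_frobenius_lift :
    ∃ φ : Gq, (padicPlace q).IsFrobeniusAt (localGaloisToGlobal q φ) q := by
  obtain ⟨φ₀, hφ₀⟩ := Fermat.Agent.Cheb.exists_isFrobeniusAt_of_liesOverPrime hq.out
    (padicPlace_liesOverPrime q)
  obtain ⟨φ, rfl⟩ := Fermat.Agent.TW.Loc.exists_localGaloisToGlobal_eq q
    hφ₀.mem_decompositionSubgroup
  exact ⟨φ, hφ₀⟩

variable {q}

/-- **Frobenius generation in the local group**: modulo inertia and a level, every element of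
`Gq` is a power of a given Frobenius lift. -/
theorem exists_eq_pow_mul_mul {φ : Gq}
    (hφ : (padicPlace q).IsFrobeniusAt (localGaloisToGlobal q φ) q)
    (F : IntermediateField ℚ Qb) [FiniteDimensional ℚ F] [Normal ℚ F] (σ : Gq) :
    ∃ (n : ℕ) (i w : Gq), localGaloisToGlobal q i ∈ (padicPlace q).inertiaSubgroupIn ℚ ∧
      localGaloisToGlobal q w ∈ F.fixingSubgroup ∧ σ = φ ^ n * i * w := by
  obtain ⟨n, i₀, w₀, hi₀, hw₀, h⟩ :=
    Fermat.Agent.TW.Bridge.FrobInertia.exists_frob_pow_mul_inertia_mul_fixing hq.out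
      (padicPlace_liesOverPrime q) hφ F (localGaloisToGlobal_mem_decompositionSubgroup q σ)
  have hi₀D : i₀ ∈ (padicPlace q).decompositionSubgroup ℚ :=
    ((Fermat.Agent.S14.mem_inertiaSubgroupIn_iff _ _).mp hi₀).1
  obtain ⟨i, rfl⟩ := Fermat.Agent.TW.Loc.exists_localGaloisToGlobal_eq q hi₀D
  have hw₀D : w₀ ∈ (padicPlace q).decompositionSubgroup ℚ := by
    have hw : w₀ = (localGaloisToGlobal q i)⁻¹ * ((localGaloisToGlobal q φ) ^ n)⁻¹ *
        localGaloisToGlobal q σ := by
      rw [h]; group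
    rw [hw]
    exact mul_mem (mul_mem (inv_mem hi₀D)
      (inv_mem (pow_mem hφ.mem_decompositionSubgroup n)))
      (localGaloisToGlobal_mem_decompositionSubgroup q σ)
  obtain ⟨w, rfl⟩ := Fermat.Agent.TW.Loc.exists_localGaloisToGlobal_eq q hw₀D
  refine ⟨n, i, w, hi₀, hw₀, ?_⟩
  apply Fermat.Agent.TW.Bridge.LocalInertia.localGaloisToGlobal_injective q
  rw [h, map_mul, map_mul, map_pow]

/-- **An unramified level-constant additive map is determined by its value at a Frobenius
lift.** -/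
theorem exists_nsmul_eq {M : Type*} [AddCommMonoid M] {u : Gq → M}
    (hadd : ∀ g h : Gq, u (g * h) = u g + u h)
    (hLC : (levelOf (localGaloisToGlobal q)).IsLC₁ u)
    (hunr : ∀ s : Gq, localGaloisToGlobal q s ∈ (padicPlace q).inertiaSubgroupIn ℚ → u s = 0)
    {φ : Gq} (hφ : (padicPlace q).IsFrobeniusAt (localGaloisToGlobal q φ) q) (σ : Gq) :
    ∃ n : ℕ, u σ = n • u φ := by
  obtain ⟨_, ⟨_, ⟨F, hgal, hfd, rfl⟩, rfl⟩, hN⟩ := hLC
  haveI := hfd
  haveI : Normal ℚ F := hgal.to_normal
  have h1 : u 1 = 0 := by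
    have h2 := hunr 1 (by rw [map_one]; exact one_mem _)
    exact h2
  obtain ⟨n, i, w, hi, hw, rfl⟩ := exists_eq_pow_mul_mul hφ F σ
  refine ⟨n, ?_⟩
  have hpow : ∀ m : ℕ, u (φ ^ m) = m • u φ := by
    intro m
    induction m with
    | zero => rw [pow_zero, zero_smul, h1]
    | succ m ih => rw [pow_succ, hadd, ih, succ_nsmul]
  have hw' : u w = 0 := by
    have := hN 1 w hw
    rw [one_mul, h1] at this
    exact this
  rw [hadd, hadd, hpow, hunr i hi, hw', add_zero, add_zero]

/-- **`Hom_ur(G_{ℚ_q}, k)` has dimension at most one.** -/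
theorem finrank_le_one_of_forall {k : Type*} [Field k] (W : Submodule k (Gq → k))
    (hW : ∀ u ∈ W, (∀ g h : Gq, u (g * h) = u g + u h) ∧
      (levelOf (localGaloisToGlobal q)).IsLC₁ u ∧
      ∀ s : Gq, localGaloisToGlobal q s ∈ (padicPlace q).inertiaSubgroupIn ℚ → u s = 0) :
    Module.Finite k W ∧ Module.finrank k W ≤ 1 := by
  obtain ⟨φ, hφ⟩ := exists_frobenius_lift q
  let ev : W →ₗ[k] k :=
    { toFun := fun u => (u : Gq → k) φ
      map_add' := fun _ _ => rfl
      map_smul' := fun _ _ => rfl }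
  have hinj : Function.Injective ev := by
    rw [← LinearMap.ker_eq_bot, LinearMap.ker_eq_bot']
    intro u hu
    apply Subtype.ext
    funext σ
    obtain ⟨hadd, hLC, hunr⟩ := hW u u.2
    obtain ⟨n, hn⟩ := exists_nsmul_eq hadd hLC hunr hφ σ
    have hu' : (u : Gq → k) φ = 0 := hu
    rw [hn, hu', smul_zero]
    rfl
  haveI : Module.Finite k W := Module.Finite.of_injective ev hinj
  refine ⟨inferInstance, ?_⟩
  have := LinearMap.finrank_le_finrank_of_injective hinj
  rwa [Module.finrank_self] at this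

end Fermat.Agent.TW.Bridge.UnrHom
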